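import Fermat.Agent.S52.Level5.Klein
import Fermat.Agent.S52.Level5.Identities

/-!
# S52 / Level5 : skeleton of NODE B (statements only)
-/

set_option autoImplicit false
open WeierstrassCurve WeierstrassCurve.Affine WeierstrassCurve.Affine.Point

namespace Fermat.Agent.S52.Level5

/-! ### B-G : general lemmas on short Weierstrass curves (file Level5/AddLemmas.lean) -/

section AddLemmas
variable {F : Type*} [Field F] [DecidableEq F] (E : WeierstrassCurve F)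
  (h₁ : E.a₁ = 0) (h₂ : E.a₂ = 0) (h₃ : E.a₃ = 0)

include h₁ h₂ h₃ in
theorem nonsingular_of_eq (hΔ : E.Δ ≠ 0) {x y : F} (h : y ^ 2 = x ^ 3 + E.a₄ * x + E.a₆) :
    E.toAffine.Nonsingular x y := by
  sorry

include h₁ h₂ h₃ in
theorem add_of_identities {x₁ y₁ x₂ y₂ x₃ y₃ : F} (n₁ : E.toAffine.Nonsingular x₁ y₁)
    (n₂ : E.toAffine.Nonsingular x₂ y₂) (n₃ : E.toAffine.Nonsingular x₃ y₃) (hx : x₁ ≠ x₂)
    (Ix : x₃ * (x₁ - x₂) ^ 2 = (y₁ - y₂) ^ 2 - (x₁ + x₂) * (x₁ - x₂) ^ 2)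
    (Iy : y₃ * (x₁ - x₂) = -((y₁ - y₂) * (x₃ - x₁) + y₁ * (x₁ - x₂))) :
    Point.some x₁ y₁ n₁ + Point.some x₂ y₂ n₂ = Point.some x₃ y₃ n₃ := by
  sorry

include h₁ h₂ h₃ in
theorem double_of_identities {x₁ y₁ x₃ y₃ : F} (n₁ : E.toAffine.Nonsingular x₁ y₁)
    (n₃ : E.toAffine.Nonsingular x₃ y₃) (h2 : (2 : F) ≠ 0) (hy : y₁ ≠ 0)
    (Ix : x₃ * (2 * y₁) ^ 2 = (3 * x₁ ^ 2 + E.a₄) ^ 2 - 2 * x₁ * (2 * y₁) ^ 2)
    (Iy : y₃ * (2 * y₁) = -((3 * x₁ ^ 2 + E.a₄) * (x₃ - x₁) + y₁ * (2 * y₁))) :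
    Point.some x₁ y₁ n₁ + Point.some x₁ y₁ n₁ = Point.some x₃ y₃ n₃ := by
  sorry

include h₁ h₂ h₃ in
theorem neg_some_short {x y : F} (n : E.toAffine.Nonsingular x y) :
    ∃ n', -Point.some x y n = Point.some x (-y) n' := by
  sorry

end AddLemmas

/-! ### B-L : the level structure (file Level5/Lambda.lean) -/

theorem isKlein_Δ_ne_zero {F : Type*} [Field F] (h2 : (2 : F) ≠ 0) (h3 : (3 : F) ≠ 0)
    {E : WeierstrassCurve F} {u v : F} (hE : IsKlein E u v) : E.Δ ≠ 0 := by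
  sorry

theorem exists_level5 {F : Type*} [Field F] [DecidableEq F] (h2 : (2 : F) ≠ 0) (h3 : (3 : F) ≠ 0)
    (z w : F) (hz : 1 + z + z ^ 2 + z ^ 3 + z ^ 4 = 0) (hw : 5 * w = 1)
    (E : WeierstrassCurve F) (u v : F) (hE : IsKlein E u v) :
    ∃ Λ : ZMod 5 × ZMod 5 →+ E.toAffine.Point, Function.Injective Λ ∧
      ∀ p, p ≠ 0 → ∃ h, Λ p = Point.some (tabX z w p u v) (tabY z w p u v) h := by
  sorry

/-! ### B-C : at most 25 points of 5-torsion (file Level5/Card.lean) -/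

theorem torsion_mem_range {F : Type*} [Field F] [DecidableEq F] (h2 : (2 : F) ≠ 0)
    (h3 : (3 : F) ≠ 0) (h5 : (5 : F) ≠ 0) (E : WeierstrassCurve F) (hΔ : E.Δ ≠ 0)
    (Λ : ZMod 5 × ZMod 5 →+ E.toAffine.Point) (hΛ : Function.Injective Λ)
    (P : E.toAffine.Point) (hP : (5 : ℕ) • P = 0) : ∃ p, Λ p = P := by
  sorry

/-! ### B-E : every curve is a Klein curve over an algebraically closed field
(file Level5/Exist.lean) -/

theorem exists_param {K : Type*} [Field K] [IsAlgClosed K] (h2 : (2 : K) ≠ 0) (h3 : (3 : K) ≠ 0)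
    (h5 : (5 : K) ≠ 0) (c4 c6 : K)
    (hΔ : c4 ^ 3 - c6 ^ 2 ≠ 0) : ∃ u v : K, kH u v = c4 ∧ kT u v = -c6 := by
  sorry

theorem exists_zeta {K : Type*} [Field K] [IsAlgClosed K] :
    ∃ z : K, 1 + z + z ^ 2 + z ^ 3 + z ^ 4 = 0 := by
  sorry

/-- `kH` and `kf` have no common zero (used for semistability). -/
theorem eq_zero_of_kH_kf {K : Type*} [Field K] (h5 : (5 : K) ≠ 0) (u v : K) (hH : kH u v = 0) (hf : kf u v = 0) : u = 0 ∧ v = 0 := by
  sorry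

/-! ### compatibility of the table with ring homomorphisms (file Level5/TableMap.lean) -/

theorem map_tabX {R S : Type*} [CommRing R] [CommRing S] (f : R →+* S) (z w : R)
    (p : ZMod 5 × ZMod 5) (u v : R) : f (tabX z w p u v) = tabX (f z) (f w) p (f u) (f v) := by
  sorry

theorem map_tabY {R S : Type*} [CommRing R] [CommRing S] (f : R →+* S) (z w : R)
    (p : ZMod 5 × ZMod 5) (u v : R) : f (tabY z w p u v) = tabY (f z) (f w) p (f u) (f v) := by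
  sorry

end Fermat.Agent.S52.Level5
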